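import Mathlib.NumberTheory.ModularForms.CongruenceSubgroups
import Mathlib.LinearAlgebra.Matrix.SpecialLinearGroup
import Mathlib.Tactic

set_option autoImplicit false

namespace Fermat.Agent.S20.H94

open Matrix MatrixGroups CongruenceSubgroup ModularGroup

variable {N : ℕ}

/-- Two elements of `SL(2,ℤ)` define the same left coset of `Γ₀(N)` iff the "cross product" of
their first columns vanishes mod `N`. -/
theorem mk_eq_mk_iff (g g' : SL(2, ℤ)) :
    (QuotientGroup.mk g : SL(2, ℤ) ⧸ Gamma0 N) = QuotientGroup.mk g' ↔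
      (N : ℤ) ∣ g 0 0 * g' 1 0 - g 1 0 * g' 0 0 := by
  rw [QuotientGroup.eq, Gamma0_mem, ZMod.intCast_zmod_eq_zero_iff_dvd]
  have : (g⁻¹ * g') 1 0 = g 0 0 * g' 1 0 - g 1 0 * g' 0 0 := by
    rw [Matrix.SpecialLinearGroup.coe_mul, Matrix.SpecialLinearGroup.SL2_inv_expl]
    rw [Matrix.mul_apply, Fin.sum_univ_two]
    simp
    ring
  rw [this]

theorem T_zpow_mul_apply_zero_zero (k : ℤ) (g : SL(2, ℤ)) :
    (T ^ k * g) 0 0 = g 0 0 + k * g 1 0 := by
  rw [Matrix.SpecialLinearGroup.coe_mul, coe_T_zpow]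
  simp [Matrix.mul_apply, Fin.sum_univ_two]

theorem T_zpow_mul_apply_one_zero (k : ℤ) (g : SL(2, ℤ)) :
    (T ^ k * g) 1 0 = g 1 0 := by
  rw [Matrix.SpecialLinearGroup.coe_mul, coe_T_zpow]
  simp [Matrix.mul_apply, Fin.sum_univ_two]

theorem isCoprime_col (g : SL(2, ℤ)) : IsCoprime (g 0 0) (g 1 0) := by
  refine ⟨g 1 1, -(g 0 1), ?_⟩
  have := g.det_coe
  rw [Matrix.det_fin_two] at this
  linarith

end Fermat.Agent.S20.H94
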