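import Mathlib.Data.ZMod.Basic
import Mathlib.Data.ZMod.Units
import Mathlib.Data.Nat.Totient
import Mathlib.NumberTheory.Divisors
import Mathlib.Tactic

set_option autoImplicit false

namespace Fermat.Agent.S20.H94

/-- The gcd of the lower-left entry with `N` is an invariant of the `T`-orbit of a coset. -/
theorem gcd_eq_of_dvd {N : ℕ} {a c a' c' k : ℤ} (h : IsCoprime a c) (h' : IsCoprime a' c')
    (hk : (N : ℤ) ∣ (a + k * c) * c' - c * a') : Int.gcd c N = Int.gcd c' N := by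
  have hdN : ((Int.gcd c N : ℕ) : ℤ) ∣ N := Int.gcd_dvd_right c N
  have hdc : ((Int.gcd c N : ℕ) : ℤ) ∣ c := Int.gcd_dvd_left c N
  have hd'N : ((Int.gcd c' N : ℕ) : ℤ) ∣ N := Int.gcd_dvd_right c' N
  have hd'c : ((Int.gcd c' N : ℕ) : ℤ) ∣ c' := Int.gcd_dvd_left c' N
  apply Nat.dvd_antisymm
  · apply Int.dvd_gcd _ hdN
    have h1 : ((Int.gcd c N : ℕ) : ℤ) ∣ (a + k * c) * c' := by
      have := dvd_add (hdN.trans hk) (hdc.mul_right a')
      simpa using this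
    have hcop : IsCoprime ((Int.gcd c N : ℕ) : ℤ) (a + k * c) := by
      have h2 : IsCoprime c (a + k * c) := by
        refine IsCoprime.symm ?_
        rw [IsCoprime.add_mul_right_left_iff]
        exact h
      exact h2.of_isCoprime_of_dvd_left hdc
    exact hcop.dvd_of_dvd_mul_left h1
  · apply Int.dvd_gcd _ hd'N
    have h1 : ((Int.gcd c' N : ℕ) : ℤ) ∣ c * a' := by
      have := dvd_sub (hd'c.mul_left (a + k * c)) (hd'N.trans hk)
      simpa using this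
    have hcop : IsCoprime ((Int.gcd c' N : ℕ) : ℤ) a' := h'.symm.of_isCoprime_of_dvd_left hd'c
    exact hcop.dvd_of_dvd_mul_right h1

/-- Core integer lemma in factored form. -/
theorem exists_k_iff_aux {d m : ℕ} (hd : 0 < d) {a c₁ a' c₁' : ℤ}
    (hc₁ : IsCoprime c₁ (m : ℤ)) (hc₁' : IsCoprime c₁' (m : ℤ)) :
    (∃ k : ℤ, ((d * m : ℕ) : ℤ) ∣ (a + k * (d * c₁)) * (d * c₁') - (d * c₁) * a') ↔
      ((Nat.gcd d m : ℕ) : ℤ) ∣ a * c₁' - a' * c₁ := by
  have hd0 : (d : ℤ) ≠ 0 := by exact_mod_cast hd.ne'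
  have key : ∀ k : ℤ, (a + k * (d * c₁)) * (d * c₁') - (d * c₁) * a' =
      (d : ℤ) * ((a * c₁' - a' * c₁) + k * (d * (c₁ * c₁'))) := fun k => by ring
  constructor
  · rintro ⟨k, hk⟩
    rw [key, Nat.cast_mul, mul_dvd_mul_iff_left hd0] at hk
    have hgm : ((Nat.gcd d m : ℕ) : ℤ) ∣ (m : ℤ) := by exact_mod_cast Nat.gcd_dvd_right d m
    have hgd : ((Nat.gcd d m : ℕ) : ℤ) ∣ (d : ℤ) := by exact_mod_cast Nat.gcd_dvd_left d m
    have h2 := hgm.trans hk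
    have h3 : ((Nat.gcd d m : ℕ) : ℤ) ∣ k * (d * (c₁ * c₁')) :=
      Dvd.dvd.mul_left (hgd.mul_right _) k
    exact (dvd_add_left h3).mp h2
  · rintro ⟨w₀, hw₀⟩
    -- Bezout for `d * (c₁ * c₁')` and `m`
    have hcop : IsCoprime (c₁ * c₁') (m : ℤ) := hc₁.mul_left hc₁'
    obtain ⟨u, v, huv⟩ := hcop
    -- u * (c₁ c₁') + v * m = 1
    have hb := Int.gcd_eq_gcd_ab (d : ℤ) (m : ℤ)
    rw [Int.gcd_natCast_natCast] at hb
    -- g = d * x + m * y
    set x := Int.gcdA (d : ℤ) (m : ℤ)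
    set y := Int.gcdB (d : ℤ) (m : ℤ)
    refine ⟨-(w₀ * x * u), ?_⟩
    rw [key, Nat.cast_mul, mul_dvd_mul_iff_left hd0, hw₀]
    refine ⟨w₀ * y + w₀ * x * d * v, ?_⟩
    have e1 : (c₁ * c₁') * u = 1 - v * m := by linear_combination huv
    calc ((Nat.gcd d m : ℕ) : ℤ) * w₀ + -(w₀ * x * u) * (d * (c₁ * c₁'))
        = ((Nat.gcd d m : ℕ) : ℤ) * w₀ - w₀ * x * d * ((c₁ * c₁') * u) := by ring
      _ = ((Nat.gcd d m : ℕ) : ℤ) * w₀ - w₀ * x * d * (1 - v * m) := by rw [e1]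
      _ = (d * x + m * y) * w₀ - w₀ * x * d * (1 - v * m) := by rw [hb]
      _ = (m : ℤ) * (w₀ * y + w₀ * x * d * v) := by ring

/-- `d = gcd(c, N)`: the "denominator level" of the cusp attached to a column `(a, c)`. -/
def cuspD (N : ℕ) (c : ℤ) : ℕ := Int.gcd c N

/-- `g = gcd(d, N / d)`. -/
def cuspG (N : ℕ) (c : ℤ) : ℕ := Nat.gcd (cuspD N c) (N / cuspD N c)

/-- The residue `a * (c / d)⁻¹ mod g`, as a natural number `< g`. -/
def cuspR (N : ℕ) (a c : ℤ) : ℕ :=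
  ((a : ZMod (cuspG N c)) * ((c / (cuspD N c : ℤ) : ℤ) : ZMod (cuspG N c))⁻¹).val

section

variable {N : ℕ} (hN : N ≠ 0)
include hN

theorem cuspD_pos (c : ℤ) : 0 < cuspD N c :=
  Int.gcd_pos_of_ne_zero_right c (by exact_mod_cast hN)

omit hN in
theorem cuspD_dvd (c : ℤ) : cuspD N c ∣ N :=
  Int.natCast_dvd_natCast.mp (Int.gcd_dvd_right c N)

omit hN in
theorem cuspD_dvd_left (c : ℤ) : (cuspD N c : ℤ) ∣ c := Int.gcd_dvd_left c N

omit hN in
theorem cuspD_mul_div (c : ℤ) : (cuspD N c : ℤ) * (c / (cuspD N c : ℤ)) = c :=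
  Int.mul_ediv_cancel' (cuspD_dvd_left c)

omit hN in
theorem cuspD_mul_div_nat (c : ℤ) : cuspD N c * (N / cuspD N c) = N :=
  Nat.mul_div_cancel' (cuspD_dvd c)

theorem cuspG_pos (c : ℤ) : 0 < cuspG N c :=
  Nat.gcd_pos_of_pos_left _ (cuspD_pos hN c)

theorem isCoprime_div_cuspD (c : ℤ) :
    IsCoprime (c / (cuspD N c : ℤ)) ((N / cuspD N c : ℕ) : ℤ) := by
  have h := Int.gcd_div_gcd_div_gcd (i := c) (j := (N : ℤ)) (cuspD_pos hN c)
  rw [Int.isCoprime_iff_gcd_eq_one]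
  have e : ((N / cuspD N c : ℕ) : ℤ) = (N : ℤ) / ((Int.gcd c N : ℕ) : ℤ) := by
    rw [Int.natCast_div]; rfl
  rw [e]
  exact h

theorem isCoprime_div_cuspG (c : ℤ) :
    IsCoprime (c / (cuspD N c : ℤ)) ((cuspG N c : ℕ) : ℤ) :=
  (isCoprime_div_cuspD hN c).of_isCoprime_of_dvd_right
    (Int.natCast_dvd_natCast.mpr (Nat.gcd_dvd_right _ _))

omit hN in
theorem isCoprime_cuspG {a c : ℤ} (h : IsCoprime a c) : IsCoprime a ((cuspG N c : ℕ) : ℤ) :=
  h.of_isCoprime_of_dvd_right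
    ((Int.natCast_dvd_natCast.mpr (Nat.gcd_dvd_left _ _)).trans (cuspD_dvd_left c))

theorem cuspR_lt (a c : ℤ) : cuspR N a c < cuspG N c :=
  haveI : NeZero (cuspG N c) := ⟨(cuspG_pos hN c).ne'⟩
  ZMod.val_lt _

theorem cuspR_spec (a c : ℤ) :
    ((cuspG N c : ℕ) : ℤ) ∣ (cuspR N a c : ℤ) * (c / (cuspD N c : ℤ)) - a := by
  have : NeZero (cuspG N c) := ⟨(cuspG_pos hN c).ne'⟩
  have e : (((c / (cuspD N c : ℤ) : ℤ) : ZMod (cuspG N c)))⁻¹ *
      ((c / (cuspD N c : ℤ) : ℤ) : ZMod (cuspG N c)) = 1 := by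
    rw [mul_comm]
    exact ZMod.coe_int_mul_inv_eq_one (isCoprime_div_cuspG hN c)
  rw [← ZMod.intCast_zmod_eq_zero_iff_dvd]
  push_cast
  rw [cuspR, ZMod.natCast_zmod_val, mul_assoc, e, mul_one, sub_self]

theorem coprime_cuspR {a c : ℤ} (h : IsCoprime a c) : Nat.Coprime (cuspG N c) (cuspR N a c) := by
  obtain ⟨t, ht⟩ := cuspR_spec hN a c
  have h1 : IsCoprime a ((cuspG N c : ℕ) : ℤ) := isCoprime_cuspG h
  have h2 : IsCoprime ((cuspR N a c : ℤ) * (c / (cuspD N c : ℤ))) ((cuspG N c : ℕ) : ℤ) := by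
    have e : (cuspR N a c : ℤ) * (c / (cuspD N c : ℤ)) = a + ((cuspG N c : ℕ) : ℤ) * t := by
      linear_combination ht
    rw [e, IsCoprime.add_mul_left_left_iff]
    exact h1
  have h3 : IsCoprime (cuspR N a c : ℤ) ((cuspG N c : ℕ) : ℤ) := h2.of_mul_left_left
  exact (Nat.isCoprime_iff_coprime.mp h3).symm

/-- **Key arithmetic equivalence**: two coprime columns `(a, c)`, `(a', c')` are related by
`N ∣ (a + k c) c' - c a'` for some `k` iff they have the same invariants `(d, r)`. -/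
theorem exists_k_iff {a c a' c' : ℤ} (h : IsCoprime a c) (h' : IsCoprime a' c') :
    (∃ k : ℤ, (N : ℤ) ∣ (a + k * c) * c' - c * a') ↔
      (cuspD N c = cuspD N c' ∧ cuspR N a c = cuspR N a' c') := by
  have hcd := cuspD_mul_div (N := N) c
  have hcd' := cuspD_mul_div (N := N) c'
  have hNd := cuspD_mul_div_nat (N := N) c
  have s1 := cuspR_spec hN a c
  have s2 := cuspR_spec hN a' c'
  have l1 := cuspR_lt hN a c
  have l2 := cuspR_lt hN a' c'
  have cop1 := isCoprime_div_cuspG hN c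
  have cop2 := isCoprime_div_cuspG hN c'
  have copm1 := isCoprime_div_cuspD hN c
  have copm2 := isCoprime_div_cuspD hN c'
  have key : cuspD N c = cuspD N c' →
      ((∃ k : ℤ, (N : ℤ) ∣ (a + k * c) * c' - c * a') ↔
        ((cuspG N c : ℕ) : ℤ) ∣ a * (c' / (cuspD N c : ℤ)) - a' * (c / (cuspD N c : ℤ))) := by
    intro hd
    rw [← hd] at hcd' copm2
    have := exists_k_iff_aux (a := a) (a' := a') (cuspD_pos hN c) copm1 copm2
    rw [hNd, hcd, hcd'] at this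
    exact this
  constructor
  · rintro ⟨k, hk⟩
    have hd : cuspD N c = cuspD N c' := gcd_eq_of_dvd h h' hk
    have hg : cuspG N c = cuspG N c' := by unfold cuspG; rw [hd]
    refine ⟨hd, ?_⟩
    have hdiv := (key hd).mp ⟨k, hk⟩
    rw [← hg, ← hd] at s2 cop2
    rw [← hg] at l2
    have h3 : ((cuspG N c : ℕ) : ℤ) ∣ ((cuspR N a c : ℤ) - (cuspR N a' c' : ℤ)) *
        ((c / (cuspD N c : ℤ)) * (c' / (cuspD N c : ℤ))) := by
      have := dvd_add (dvd_sub (s1.mul_right (c' / (cuspD N c : ℤ)))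
        (s2.mul_right (c / (cuspD N c : ℤ)))) hdiv
      have e : ((cuspR N a c : ℤ) - (cuspR N a' c' : ℤ)) *
          ((c / (cuspD N c : ℤ)) * (c' / (cuspD N c : ℤ))) =
          ((cuspR N a c : ℤ) * (c / (cuspD N c : ℤ)) - a) * (c' / (cuspD N c : ℤ)) -
            ((cuspR N a' c' : ℤ) * (c' / (cuspD N c : ℤ)) - a') * (c / (cuspD N c : ℤ)) +
            (a * (c' / (cuspD N c : ℤ)) - a' * (c / (cuspD N c : ℤ))) := by ring
      rw [e]
      exact this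
    have hcop : IsCoprime ((cuspG N c : ℕ) : ℤ)
        ((c / (cuspD N c : ℤ)) * (c' / (cuspD N c : ℤ))) :=
      IsCoprime.mul_right cop1.symm cop2.symm
    have h4 : ((cuspG N c : ℕ) : ℤ) ∣ (cuspR N a c : ℤ) - (cuspR N a' c' : ℤ) :=
      hcop.dvd_of_dvd_mul_right h3
    have h5 : (cuspR N a' c' : ℤ) ≡ (cuspR N a c : ℤ) [ZMOD ((cuspG N c : ℕ) : ℤ)] :=
      (Int.modEq_iff_dvd).mpr h4
    exact (Nat.ModEq.eq_of_lt_of_lt (Int.natCast_modEq_iff.mp h5) l2 l1).symm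
  · rintro ⟨hd, hr⟩
    have hg : cuspG N c = cuspG N c' := by unfold cuspG; rw [hd]
    rw [key hd]
    rw [← hg, ← hd, ← hr] at s2
    have := dvd_sub (s2.mul_right (c / (cuspD N c : ℤ))) (s1.mul_right (c' / (cuspD N c : ℤ)))
    have e : a * (c' / (cuspD N c : ℤ)) - a' * (c / (cuspD N c : ℤ)) =
        ((cuspR N a c : ℤ) * (c' / (cuspD N c : ℤ)) - a') * (c / (cuspD N c : ℤ)) -
          ((cuspR N a c : ℤ) * (c / (cuspD N c : ℤ)) - a) * (c' / (cuspD N c : ℤ)) := by ring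
    rw [e]
    exact this

/-- Characterisation of the residue invariant. -/
theorem cuspR_eq_of {a c : ℤ} {r : ℕ} (hr : r < cuspG N c)
    (hdiv : ((cuspG N c : ℕ) : ℤ) ∣ (r : ℤ) * (c / (cuspD N c : ℤ)) - a) : cuspR N a c = r := by
  have s1 := cuspR_spec hN a c
  have l1 := cuspR_lt hN a c
  have h3 : ((cuspG N c : ℕ) : ℤ) ∣ ((r : ℤ) - (cuspR N a c : ℤ)) * (c / (cuspD N c : ℤ)) := by
    have := dvd_sub hdiv s1
    have e : ((r : ℤ) - (cuspR N a c : ℤ)) * (c / (cuspD N c : ℤ)) =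
        ((r : ℤ) * (c / (cuspD N c : ℤ)) - a) -
          ((cuspR N a c : ℤ) * (c / (cuspD N c : ℤ)) - a) := by ring
    rw [e]
    exact this
  have h4 : ((cuspG N c : ℕ) : ℤ) ∣ (r : ℤ) - (cuspR N a c : ℤ) :=
    (isCoprime_div_cuspG hN c).symm.dvd_of_dvd_mul_right h3
  have h5 : (cuspR N a c : ℤ) ≡ (r : ℤ) [ZMOD ((cuspG N c : ℕ) : ℤ)] :=
    (Int.modEq_iff_dvd).mpr h4
  exact Nat.ModEq.eq_of_lt_of_lt (Int.natCast_modEq_iff.mp h5) l1 hr

/-- Every admissible pair of invariants `(d, r)` is attained by a coprime column. -/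
theorem exists_col_of_mem {d r : ℕ} (hd : d ∣ N) (hr : r < Nat.gcd d (N / d))
    (hcop : Nat.Coprime (Nat.gcd d (N / d)) r) :
    ∃ a c : ℤ, IsCoprime a c ∧ cuspD N c = d ∧ cuspR N a c = r := by
  have hd0 : d ≠ 0 := ne_zero_of_dvd_ne_zero hN hd
  have : NeZero d := ⟨hd0⟩
  have hgd : Nat.gcd d (N / d) ∣ d := Nat.gcd_dvd_left _ _
  obtain ⟨u, hu⟩ := ZMod.unitsMap_surjective hgd (ZMod.unitOfCoprime r hcop.symm)
  have hD : cuspD N (d : ℤ) = d := by
    rw [cuspD, Int.gcd_natCast_natCast, Nat.gcd_eq_left hd]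
  have hG : cuspG N (d : ℤ) = Nat.gcd d (N / d) := by
    unfold cuspG
    rw [hD]
  have hu' : (((u : ZMod d).val : ℕ) : ZMod (Nat.gcd d (N / d))) = (r : ZMod (Nat.gcd d (N / d))) := by
    have h1 := congrArg (fun x : (ZMod (Nat.gcd d (N / d)))ˣ => (x : ZMod (Nat.gcd d (N / d)))) hu
    simp only [ZMod.coe_unitOfCoprime] at h1
    rw [← h1, ZMod.natCast_val]
    rfl
  refine ⟨((u : ZMod d).val : ℤ), (d : ℤ), ?_, hD, ?_⟩
  · exact Nat.isCoprime_iff_coprime.mpr (ZMod.val_coe_unit_coprime u)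
  · apply cuspR_eq_of hN
    · rw [hG]
      exact hr
    · rw [hG, hD, Int.ediv_self (by exact_mod_cast hd0), mul_one,
        ← ZMod.intCast_zmod_eq_zero_iff_dvd]
      push_cast
      rw [hu', sub_self]

end

end Fermat.Agent.S20.H94
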