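import Fermat.Agent.S20.H94.Cosets
import Fermat.Agent.S20.H94.CuspArith
import Fermat.Prelude.Def_ModularCurve_GenusNumerics

set_option autoImplicit false

namespace Fermat.Agent.S20.H94

open Matrix MatrixGroups CongruenceSubgroup ModularGroup

/-- Counting a quotient by a complete invariant with prescribed range. -/
theorem card_eq_of_invariant {G Q σ : Type*} (π : G → Q) (hπ : Function.Surjective π)
    (inv : G → σ) (S : Finset σ) (h1 : ∀ g g', π g = π g' ↔ inv g = inv g')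
    (h2 : ∀ g, inv g ∈ S) (h3 : ∀ s ∈ S, ∃ g, inv g = s) : Nat.card Q = S.card := by
  let F : Q → S := fun q => ⟨inv (Function.surjInv hπ q), h2 _⟩
  have hF : Function.Bijective F := by
    constructor
    · intro q q' hqq'
      have h := congrArg Subtype.val hqq'
      have h' := (h1 _ _).mpr h
      rw [Function.surjInv_eq hπ q, Function.surjInv_eq hπ q'] at h'
      exact h'
    · rintro ⟨s, hs⟩
      obtain ⟨g, rfl⟩ := h3 s hs
      refine ⟨π g, Subtype.ext ?_⟩
      exact (h1 _ _).mp (Function.surjInv_eq hπ (π g))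
  rw [Nat.card_congr (Equiv.ofBijective F hF), Nat.card_eq_fintype_card, Fintype.card_coe]

/-- The complete invariant of the `T`-orbit of a coset `g Γ₀(N)`. -/
noncomputable def cuspInv (N : ℕ) (g : SL(2, ℤ)) : Σ _ : ℕ, ℕ :=
  ⟨cuspD N (g 1 0), cuspR N (g 0 0) (g 1 0)⟩

/-- The set of values of the invariant. -/
def cuspSet (N : ℕ) : Finset (Σ _ : ℕ, ℕ) :=
  N.divisors.sigma fun d =>
    (Finset.range (Nat.gcd d (N / d))).filter (Nat.Coprime (Nat.gcd d (N / d)))

theorem card_cuspSet (N : ℕ) : (cuspSet N).card = ModularCurve.cuspCount N := by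
  rw [cuspSet, Finset.card_sigma, ModularCurve.cuspCount]
  refine Finset.sum_congr rfl fun d _ => ?_
  rw [Nat.totient_eq_card_coprime]

/-- **Cusp count**: the number of orbits of `⟨T⟩` on `SL(2,ℤ) ⧸ Γ₀(N)` is
`∑_{d ∣ N} φ(gcd(d, N/d))`. -/
theorem card_orbits_T (N : ℕ) [NeZero N] :
    Nat.card (MulAction.orbitRel.Quotient (Subgroup.zpowers ModularGroup.T)
      (SL(2, ℤ) ⧸ CongruenceSubgroup.Gamma0 N)) = ModularCurve.cuspCount N := by
  have hN : N ≠ 0 := NeZero.ne N
  rw [← card_cuspSet]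
  refine card_eq_of_invariant
    (fun g : SL(2, ℤ) => (Quotient.mk'' (QuotientGroup.mk g : SL(2, ℤ) ⧸ Gamma0 N) :
      MulAction.orbitRel.Quotient (Subgroup.zpowers ModularGroup.T) (SL(2, ℤ) ⧸ Gamma0 N)))
    ?_ (cuspInv N) (cuspSet N) ?_ ?_ ?_
  · intro q
    induction q using Quotient.inductionOn' with
    | h x =>
      induction x using QuotientGroup.induction_on with
      | H g => exact ⟨g, rfl⟩
  · intro g g'
    rw [Quotient.eq'', MulAction.orbitRel_apply, MulAction.mem_orbit_iff]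
    have e : (∃ x : Subgroup.zpowers ModularGroup.T,
        x • (QuotientGroup.mk g' : SL(2, ℤ) ⧸ Gamma0 N) = QuotientGroup.mk g) ↔
        ∃ k : ℤ, (N : ℤ) ∣ (g' 0 0 + k * g' 1 0) * g 1 0 - g' 1 0 * g 0 0 := by
      constructor
      · rintro ⟨⟨t, ht⟩, h⟩
        obtain ⟨k, rfl⟩ := Subgroup.mem_zpowers_iff.mp ht
        refine ⟨k, ?_⟩
        have h' : (QuotientGroup.mk (T ^ k * g') : SL(2, ℤ) ⧸ Gamma0 N) = QuotientGroup.mk g := h
        rw [mk_eq_mk_iff, T_zpow_mul_apply_zero_zero, T_zpow_mul_apply_one_zero] at h'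
        exact h'
      · rintro ⟨k, hk⟩
        refine ⟨⟨T ^ k, Subgroup.zpow_mem_zpowers T k⟩, ?_⟩
        show (QuotientGroup.mk (T ^ k * g') : SL(2, ℤ) ⧸ Gamma0 N) = QuotientGroup.mk g
        rw [mk_eq_mk_iff, T_zpow_mul_apply_zero_zero, T_zpow_mul_apply_one_zero]
        exact hk
    rw [e, exists_k_iff hN (isCoprime_col g') (isCoprime_col g)]
    simp only [cuspInv, Sigma.mk.injEq, heq_eq_eq]
    constructor
    · rintro ⟨h1, h2⟩
      exact ⟨h1.symm, h2.symm⟩
    · rintro ⟨h1, h2⟩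
      exact ⟨h1.symm, h2.symm⟩
  · intro g
    rw [cuspSet, Finset.mem_sigma, Finset.mem_filter, Finset.mem_range, Nat.mem_divisors]
    exact ⟨⟨cuspD_dvd _, hN⟩, cuspR_lt hN _ _, coprime_cuspR hN (isCoprime_col g)⟩
  · rintro ⟨d, r⟩ hs
    rw [cuspSet, Finset.mem_sigma, Finset.mem_filter, Finset.mem_range, Nat.mem_divisors] at hs
    obtain ⟨a, c, hac, hD, hR⟩ := exists_col_of_mem hN hs.1.1 hs.2.1 hs.2.2
    obtain ⟨g, hg0, hg1⟩ := hac.exists_SL2_col 0
    refine ⟨g, ?_⟩
    rw [cuspInv, hg0, hg1, hD, hR]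

end Fermat.Agent.S20.H94
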